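/-
F3 / (I2), kappa core (helper43), part 1: the unbundled ratio relation `IsRatioF N x f g`
("`x = f / g` in `FC N`", `f, g` modular forms of equal weight on `Γ₀(N)`) and its algebra.
Built on helper78's `Dict1` library.
-/
import Fermat.Agent.F3.I2.Dict1Final

set_option autoImplicit false

noncomputable section

namespace Fermat.Agent.F3I2

open UpperHalfPlane CongruenceSubgroup ModularCurve
open scoped MatrixGroups ModularForm
open Fermat.Agent.S23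

/-- `x = f / g` where `f, g` are (functions underlying) modular forms of equal weight on
`Γ₀(N)`, `g ≠ 0`. -/
def IsRatioF (N : ℕ) (x : FC N) (f g : ℍ → ℂ) : Prop :=
  g ≠ 0 ∧ (∃ w : ℤ, IsMF (G0 N) w f ∧ IsMF (G0 N) w g) ∧
    qLaurent f = (x : LaurentSeries ℂ) * qLaurent g

variable {N : ℕ}

theorem IsRatio.isRatioF {x : FC N} {w : ℤ} {A B : ModularForm (Gamma0 N) w}
    (h : IsRatio N x A B) : IsRatioF N x (⇑A) (⇑B) := by
  refine ⟨fun h0 => h.1 ?_, ⟨w, IsMF.of A, IsMF.of B⟩, h.2⟩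
  ext τ
  exact congrFun h0 τ

theorem IsRatioF.exists_isRatio {x : FC N} {f g : ℍ → ℂ} (h : IsRatioF N x f g) :
    ∃ (w : ℤ) (A B : ModularForm (Gamma0 N) w), ⇑A = f ∧ ⇑B = g ∧ IsRatio N x A B := by
  obtain ⟨hg, ⟨w, ⟨A, rfl⟩, ⟨B, rfl⟩⟩, hq⟩ := h
  refine ⟨w, A, B, rfl, rfl, fun h0 => hg ?_, hq⟩
  rw [h0]
  rfl

theorem qLaurent_ne_zero_of_isMF {w : ℤ} {g : ℍ → ℂ} (hg : IsMF (G0 N) w g) (h0 : g ≠ 0) :
    qLaurent g ≠ 0 := dict1QF_ne_zero hg h0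

theorem qLaurent_mul_of_isMF {w w' : ℤ} {f g : ℍ → ℂ} (hf : IsMF (G0 N) w f)
    (hg : IsMF (G0 N) w' g) : qLaurent (f * g) = qLaurent f * qLaurent g :=
  dict1QF_mul hf hg

theorem qLaurent_pow_of_isMF {w : ℤ} {f : ℍ → ℂ} (hf : IsMF (G0 N) w f) (n : ℕ) :
    qLaurent (f ^ n) = qLaurent f ^ n := dict1QF_pow hf n

theorem isMF_mul_ne_zero {w w' : ℤ} {f g : ℍ → ℂ} (hf : IsMF (G0 N) w f)
    (hg : IsMF (G0 N) w' g) (hf0 : f ≠ 0) (hg0 : g ≠ 0) : f * g ≠ 0 := by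
  intro h
  have h1 : qLaurent (f * g) = 0 := by rw [h]; exact dict1QF_zero
  rw [qLaurent_mul_of_isMF hf hg] at h1
  rcases mul_eq_zero.1 h1 with h2 | h2
  · exact qLaurent_ne_zero_of_isMF hf hf0 h2
  · exact qLaurent_ne_zero_of_isMF hg hg0 h2

theorem isMF_pow_ne_zero {w : ℤ} {f : ℍ → ℂ} (hf : IsMF (G0 N) w f) (hf0 : f ≠ 0) (n : ℕ) :
    f ^ n ≠ 0 := by
  intro h
  have h1 : qLaurent (f ^ n) = 0 := by rw [h]; exact dict1QF_zero
  rw [qLaurent_pow_of_isMF hf] at h1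
  exact qLaurent_ne_zero_of_isMF hf hf0 ((pow_eq_zero_iff (by
    rintro rfl
    simp at h1)).1 h1)

theorem IsRatioF.unique {x y : FC N} {f g : ℍ → ℂ} (hx : IsRatioF N x f g)
    (hy : IsRatioF N y f g) : x = y := by
  obtain ⟨hg, ⟨w, -, hgm⟩, h1⟩ := hx
  obtain ⟨-, -, h2⟩ := hy
  exact Subtype.ext (mul_right_cancel₀ (qLaurent_ne_zero_of_isMF hgm hg) (h1.symm.trans h2))

theorem IsRatioF.mul {x x' : FC N} {f g f' g' : ℍ → ℂ} (h : IsRatioF N x f g)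
    (h' : IsRatioF N x' f' g') : IsRatioF N (x * x') (f * f') (g * g') := by
  obtain ⟨hg, ⟨w, hfm, hgm⟩, h1⟩ := h
  obtain ⟨hg', ⟨w', hfm', hgm'⟩, h2⟩ := h'
  refine ⟨isMF_mul_ne_zero hgm hgm' hg hg', ⟨w + w', hfm.mul hfm', hgm.mul hgm'⟩, ?_⟩
  rw [qLaurent_mul_of_isMF hfm hfm', qLaurent_mul_of_isMF hgm hgm', h1, h2]
  push_cast
  ring

theorem IsRatioF.one_pow : ∀ (n : ℕ) {x : FC N} {f g : ℍ → ℂ}, IsRatioF N x f g →
    IsRatioF N (x ^ n) (f ^ n) (g ^ n) := by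
  intro n x f g h
  obtain ⟨hg, ⟨w, hfm, hgm⟩, h1⟩ := h
  refine ⟨isMF_pow_ne_zero hgm hg n, ⟨w * n, hfm.pow n, hgm.pow n⟩, ?_⟩
  rw [qLaurent_pow_of_isMF hfm, qLaurent_pow_of_isMF hgm, h1]
  push_cast
  ring

/-- Cross-multiplication: `x = f / g` and `f g' = f' g` give `x = f' / g'`. -/
theorem IsRatioF.congr {x : FC N} {f g f' g' : ℍ → ℂ} (h : IsRatioF N x f g)
    (hg' : g' ≠ 0) {w' : ℤ} (hfm' : IsMF (G0 N) w' f') (hgm' : IsMF (G0 N) w' g')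
    (hcross : f * g' = f' * g) : IsRatioF N x f' g' := by
  obtain ⟨hg, ⟨w, hfm, hgm⟩, h1⟩ := h
  refine ⟨hg', ⟨w', hfm', hgm'⟩, ?_⟩
  have h2 : qLaurent f * qLaurent g' = qLaurent f' * qLaurent g := by
    rw [← qLaurent_mul_of_isMF hfm hgm', ← qLaurent_mul_of_isMF hfm' hgm, hcross]
  rw [h1] at h2
  have h3 : qLaurent g * ((x : LaurentSeries ℂ) * qLaurent g') = qLaurent g * qLaurent f' := by
    rw [mul_comm (qLaurent g) (qLaurent f'), ← h2]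
    ring
  exact (mul_left_cancel₀ (qLaurent_ne_zero_of_isMF hgm hg) h3).symm

/-- Conversely two ratios for the same `x` cross-multiply. -/
theorem IsRatioF.cross {x : FC N} {f g f' g' : ℍ → ℂ} (h : IsRatioF N x f g)
    (h' : IsRatioF N x f' g') : f * g' = f' * g := by
  obtain ⟨w, A, B, rfl, rfl, hAB⟩ := h.exists_isRatio
  obtain ⟨w', A', B', rfl, rfl, hAB'⟩ := h'.exists_isRatio
  ext τ
  exact dict1_isRatio_cross hAB hAB' τ

/-- (D1b), unbundled. -/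
theorem exists_isRatioF [NeZero N] {w : ℤ} {f g : ℍ → ℂ} (hf : IsMF (G0 N) w f)
    (hg : IsMF (G0 N) w g) (hg0 : g ≠ 0) : ∃ x : FC N, IsRatioF N x f g := by
  obtain ⟨A, rfl⟩ := hf
  obtain ⟨B, rfl⟩ := hg
  have hB : B ≠ 0 := by
    intro h
    apply hg0
    rw [h]
    rfl
  obtain ⟨x, hx⟩ := dictD1b N w A B hB
  exact ⟨x, hx.isRatioF⟩

/-- (D1a), unbundled. -/
theorem exists_isRatioF_of_ne_zero [NeZero N] {x : FC N} (hx : x ≠ 0) :
    ∃ f g : ℍ → ℂ, f ≠ 0 ∧ IsRatioF N x f g := by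
  obtain ⟨w, A, B, hA, hAB⟩ := dictD1a N x hx
  refine ⟨A, B, fun h => hA ?_, hAB.isRatioF⟩
  ext τ
  exact congrFun h τ

/-- In a ratio `x = f / g`: `x = 0 ↔ f = 0`. -/
theorem IsRatioF.eq_zero_iff {x : FC N} {f g : ℍ → ℂ} (h : IsRatioF N x f g) :
    x = 0 ↔ f = 0 := by
  obtain ⟨hg, ⟨w, hfm, hgm⟩, h1⟩ := h
  constructor
  · intro hx
    rw [hx] at h1
    simp only [ZeroMemClass.coe_zero, zero_mul] at h1
    exact dict1_eq_zero_of_qF hfm h1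
  · intro hf
    rw [hf] at h1
    have h2 : qLaurent (0 : ℍ → ℂ) = 0 := dict1QF_zero
    rw [h2] at h1
    rcases mul_eq_zero.1 h1.symm with h3 | h3
    · exact Subtype.ext h3
    · exact absurd h3 (qLaurent_ne_zero_of_isMF hgm hg)

end Fermat.Agent.F3I2
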