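/-
F3 / (I2), kappa core (helper43), part 2: the relation `IsTheta N n χ c`
("`c ∈ Pic0 (FC N)` is the class of `(1/n) div (f^n / B^n)` for a form `f` with character `χ`,
`χ^n = 1`, and a form `B` with trivial character of the same weight") and its formal properties:
multiplicativity, vanishing for the trivial character, independence of the choice of `(f, B)`.
-/
import Fermat.Agent.F3.I2.Kappa.Ratio
import Fermat.Agent.F3.I2.FormChar
import Fermat.Agent.F3.I2.RootClass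

set_option autoImplicit false

noncomputable section

namespace Fermat.Agent.F3I2

open UpperHalfPlane CongruenceSubgroup ModularCurve AlgebraicCurve
open scoped MatrixGroups ModularForm Manifold
open Fermat.Agent.S23

variable {N : ℕ} [NeZero N]

/-- The class `c` is `[(1/n) div (f^n / B^n)]` for a form `f` of character `χ`. -/
def IsTheta (N n : ℕ) (χ : ↥(Gamma0 N) →* ℂˣ) (c : Pic0 ℂ (FC N)) : Prop :=
  (∀ γ, χ γ ^ n = 1) ∧
  ∃ (w : ℤ) (f B : ℍ → ℂ) (x : FC N) (D : Divisor.degZero (K := ℂ) (F := FC N)),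
    IsFormChar N w χ f ∧ IsFormChar N w 1 B ∧ f ≠ 0 ∧ B ≠ 0 ∧
    IsRatioF N x (f ^ n) (B ^ n) ∧ IsRootDiv n x D ∧ Pic0.mk D = c

theorem IsFormChar.isMF {w : ℤ} {f : ℍ → ℂ} (hf : IsFormChar N w 1 f) : IsMF (G0 N) w f :=
  hf.exists_modularForm

theorem isFormChar_of_isMF {w : ℤ} {f : ℍ → ℂ} (hf : IsMF (G0 N) w f) : IsFormChar N w 1 f := by
  obtain ⟨A, rfl⟩ := hf
  exact isFormChar_of_modularForm A

theorem IsFormChar.cast {w w' : ℤ} {χ χ' : ↥(Gamma0 N) →* ℂˣ} {f : ℍ → ℂ}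
    (hf : IsFormChar N w χ f) (hw : w = w') (hχ : χ = χ') : IsFormChar N w' χ' f := by
  subst hw; subst hχ; exact hf

theorem pow_ne_zero_fun {f : ℍ → ℂ} (hf : f ≠ 0) (n : ℕ) : f ^ n ≠ 0 := by
  obtain ⟨τ, hτ⟩ : ∃ τ, f τ ≠ 0 := by
    by_contra hcon
    push Not at hcon
    exact hf (funext hcon)
  intro h
  have := congrFun h τ
  simp only [Pi.pow_apply, Pi.zero_apply] at this
  exact hτ (pow_eq_zero_iff_of_pos' this)
where
  pow_eq_zero_iff_of_pos' {a : ℂ} {n : ℕ} (h : a ^ n = 0) : a = 0 := by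
    rcases Nat.eq_zero_or_pos n with h0 | h0
    · subst h0; simp at h
    · exact (pow_eq_zero_iff (Nat.pos_iff_ne_zero.1 h0)).1 h

/-- A form whose `n`-th power has trivial character: the `n`-th power is a modular form. -/
theorem IsFormChar.pow_isMF {w : ℤ} {χ : ↥(Gamma0 N) →* ℂˣ} {f : ℍ → ℂ}
    (hf : IsFormChar N w χ f) {n : ℕ} (hχ : ∀ γ, χ γ ^ n = 1) : IsMF (G0 N) (n * w) (f ^ n) := by
  have h := hf.pow n
  have h1 : χ ^ n = 1 := by
    ext γ
    simpa using congrArg Units.val (hχ γ)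
  exact (h.cast rfl h1).isMF

theorem IsTheta.one (N n : ℕ) [NeZero N] : IsTheta N n 1 (0 : Pic0 ℂ (FC N)) := by
  refine ⟨fun γ => by simp, 0, 1, 1, 1, 0, ?_, ?_, one_ne_zero, one_ne_zero, ?_, ?_, rfl⟩
  · exact isFormChar_of_isMF IsMF.one
  · exact isFormChar_of_isMF IsMF.one
  · refine ⟨by simp, ⟨0, ?_, ?_⟩, ?_⟩
    · rw [one_pow]; exact IsMF.one
    · rw [one_pow]; exact IsMF.one
    · simp
  · refine ⟨one_ne_zero, fun v => ?_⟩
    simp

theorem IsTheta.mul {n : ℕ} (hn : n ≠ 0) {χ χ' : ↥(Gamma0 N) →* ℂˣ} {c c' : Pic0 ℂ (FC N)}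
    (h : IsTheta N n χ c) (h' : IsTheta N n χ' c') : IsTheta N n (χ * χ') (c + c') := by
  obtain ⟨hχ, w, f, B, x, D, hf, hB, hf0, hB0, hr, hD, rfl⟩ := h
  obtain ⟨hχ', w', f', B', x', D', hf', hB', hf0', hB0', hr', hD', rfl⟩ := h'
  refine ⟨fun γ => by rw [MonoidHom.mul_apply, mul_pow, hχ, hχ', one_mul],
    w + w', f * f', B * B', x * x', D + D', hf.mul hf',
    (hB.mul hB').cast rfl (one_mul (1 : ↥(Gamma0 N) →* ℂˣ)),
    ?_, ?_, ?_, hD.mul hD', rfl⟩
  · intro h0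
    have h1 : (f * f') ^ n = 0 := by rw [h0, zero_pow hn]
    rw [mul_pow] at h1
    exact isMF_mul_ne_zero (hf.pow_isMF hχ) (hf'.pow_isMF hχ') (pow_ne_zero_fun hf0 n)
      (pow_ne_zero_fun hf0' n) h1
  · exact isMF_mul_ne_zero hB.isMF hB'.isMF hB0 hB0'
  · rw [mul_pow, mul_pow]
    exact hr.mul hr'

theorem IsTheta.congr {n : ℕ} {χ χ' : ↥(Gamma0 N) →* ℂˣ} {c c' : Pic0 ℂ (FC N)}
    (h : IsTheta N n χ c) (hχ : χ = χ') (hc : c = c') : IsTheta N n χ' c' := by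
  subst hχ; subst hc; exact h

theorem IsTheta.pow {n : ℕ} (hn : n ≠ 0) {χ : ↥(Gamma0 N) →* ℂˣ} {c : Pic0 ℂ (FC N)}
    (h : IsTheta N n χ c) (m : ℕ) : IsTheta N n (χ ^ m) (m • c) := by
  induction m with
  | zero =>
    refine (IsTheta.one N n).congr ?_ (zero_nsmul c).symm
    ext γ
    simp
  | succ k ih =>
    refine (ih.mul hn h).congr ?_ (succ_nsmul c k).symm
    ext γ
    simp [pow_succ]

theorem IsTheta.nsmul_eq_zero {n : ℕ} {χ : ↥(Gamma0 N) →* ℂˣ} {c : Pic0 ℂ (FC N)}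
    (h : IsTheta N n χ c) : n • c = 0 := by
  obtain ⟨-, w, f, B, x, D, -, -, -, -, -, hD, rfl⟩ := h
  have := hD.nsmul_mk_eq_zero
  rwa [natCast_zsmul] at this

/-- For the trivial character the class vanishes. -/
theorem IsTheta.eq_zero_of_one {n : ℕ} (hn : n ≠ 0) {c : Pic0 ℂ (FC N)}
    (h : IsTheta N n 1 c) : c = 0 := by
  obtain ⟨-, w, f, B, x, D, hf, hB, hf0, hB0, hr, hD, rfl⟩ := h
  obtain ⟨y, hy⟩ := exists_isRatioF hf.isMF hB.isMF hB0
  have hxy : x = y ^ n := hr.unique (IsRatioF.one_pow n hy)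
  rw [hxy] at hD
  exact hD.mk_eq_zero_of_pow (Nat.pos_of_ne_zero hn)

/-- The class depends only on the character. -/
theorem IsTheta.unique {n : ℕ} (hn : n ≠ 0) {χ : ↥(Gamma0 N) →* ℂˣ}
    {c c' : Pic0 ℂ (FC N)} (h : IsTheta N n χ c) (h' : IsTheta N n χ c') : c = c' := by
  have h1 := h.mul hn (h'.pow hn (n - 1))
  have hχ : χ * χ ^ (n - 1) = 1 := by
    ext γ
    have h2 : χ γ * χ γ ^ (n - 1) = χ γ ^ n := by
      rw [← pow_succ', Nat.sub_add_cancel (Nat.one_le_iff_ne_zero.2 hn)]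
    simpa using congrArg Units.val (h2.trans (h.1 γ))
  rw [hχ] at h1
  have h2 := h1.eq_zero_of_one hn
  have h3 := h'.nsmul_eq_zero
  have h4 : n • c' = (n - 1) • c' + c' := by
    rw [← succ_nsmul, Nat.sub_add_cancel (Nat.one_le_iff_ne_zero.2 hn)]
  rw [h4] at h3
  have h5 : (n - 1) • c' = -c' := eq_neg_of_add_eq_zero_left h3
  rw [h5] at h2
  exact (add_neg_eq_zero.1 h2)

end Fermat.Agent.F3I2
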