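/-
F3 / (I2), kappa core (architect helper43), Lemma E (helper84): Hecke equivariance of the relation
`IsTheta N n χ c`:  if `c = [(1/n) div (f^n / B^n)]` for a form `f` of character `χ`, then
`T_ℓ c = [(1/n) div ((Hf)^n / (HB)^n)]` where `Hf = ∏_i f ∣ α_i` has character `T_ℓ χ`
(`heckeTransfer`), and `T_ℓ χ_{c,n} = χ_{T_ℓ c, n}` for the characters `charOf n c`.
The function-level core is `isRatioF_heckeProd_pow` (E'); its hypothesis `hT` is (the unfolded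
form of) helper43's `HeckeNormAt N ℓ x x'`.
-/
import Fermat.Agent.F3.I2.Kappa.Theta
import Fermat.Agent.F3.I2.Kappa.CharOf
import Fermat.Agent.F3.I2.DictInterface

set_option autoImplicit false
set_option linter.unusedVariables false
set_option linter.style.haveILetI false

noncomputable section

namespace Fermat.Agent.F3I2

open UpperHalfPlane CongruenceSubgroup ModularCurve AlgebraicCurve
open scoped MatrixGroups ModularForm Manifold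
open Fermat.Agent.S23 Fermat.Agent.F3EC
open P2MW.S_ModularForm_heckeT_slash_eq_self_of_mem_Gamma0.ModularForm.HeckeSlashInvariance

variable {N : ℕ}

theorem heckeTransfer_one {ℓ : ℕ} [Fact ℓ.Prime] (hℓN : ¬ ℓ ∣ N) :
    heckeTransfer hℓN (1 : ↥(Gamma0 N) →* ℂˣ) = 1 := by
  ext γ
  simp [heckeTransfer_apply]

theorem kappaHecke_prod_zpow {ι : Type*} (s : Finset ι) (a : ℂˣ) (f : ι → ℤ) :
    ∏ i ∈ s, a ^ f i = a ^ ∑ i ∈ s, f i := by
  classical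
  induction s using Finset.induction_on with
  | empty => simp
  | insert i s hi ih => rw [Finset.prod_insert hi, Finset.sum_insert hi, zpow_add, ih]

theorem heckeTransfer_charOf (ℓ : Nat.Primes) (hℓN : ¬ (ℓ : ℕ) ∣ N) (n : ℕ) (c : HomPar N) :
    haveI : Fact (ℓ : ℕ).Prime := ⟨ℓ.2⟩
    heckeTransfer hℓN (charOf n c) = charOf n (heckeHom N ℓ c) := by
  haveI : Fact (ℓ : ℕ).Prime := ⟨ℓ.2⟩
  apply MonoidHom.ext
  intro γ
  rw [heckeTransfer_apply, charOf_apply, heckeHom_apply ℓ hℓN c γ]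
  simp only [charOf_apply]
  exact kappaHecke_prod_zpow _ _ _

theorem heckeTransfer_pow_eq_one {ℓ : ℕ} [Fact ℓ.Prime] (hℓN : ¬ ℓ ∣ N) {n : ℕ}
    {χ : ↥(Gamma0 N) →* ℂˣ} (hχ : ∀ γ, χ γ ^ n = 1) (γ : ↥(Gamma0 N)) :
    heckeTransfer hℓN χ γ ^ n = 1 := by
  rw [heckeTransfer_apply, ← Finset.prod_pow]
  exact Finset.prod_eq_one fun x _ => hχ _

/-- the slash of a power. -/
theorem kappaHecke_pow_slash (n : ℕ) (w : ℤ) (f : ℍ → ℂ) (g : GL (Fin 2) ℝ) :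
    (f ^ n) ∣[(n : ℤ) * w] g = (|g.det.val| ^ ((n : ℤ) - 1)) • (f ∣[w] g) ^ n := by
  have h := ModularForm.prod_slash (k := w) (g := g) (f := fun _ : ℕ => f) (s := Finset.range n)
  simp only [Finset.prod_const, Finset.card_range] at h
  rw [mul_comm]
  exact h

/-- the Hecke product of a power is a constant times the power of the Hecke product. -/
theorem kappaHecke_heckeProd_pow {ℓ : ℕ} [Fact ℓ.Prime] (n : ℕ) (w : ℤ) (f : ℍ → ℂ) :
    (fun z => ∏ i : OnePoint (ZMod ℓ), ((f ^ n) ∣[(n : ℤ) * w] heckeRep ℓ i) z) =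
      (∏ i : OnePoint (ZMod ℓ), |(heckeRep ℓ i).det.val| ^ ((n : ℤ) - 1)) •
        (fun z => ∏ i : OnePoint (ZMod ℓ), (f ∣[w] heckeRep ℓ i) z) ^ n := by
  funext z
  simp only [kappaHecke_pow_slash, Pi.smul_apply, Pi.pow_apply, Complex.real_smul]
  rw [Finset.prod_mul_distrib, Finset.prod_pow]
  push_cast
  rfl

variable [NeZero N]

set_option maxHeartbeats 800000 in
/-- **(E')** the function-level core of Lemma E: if `x'` is the Hecke norm of `x = f^n / B^n`,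
then `x' = (Hf)^n / (HB)^n` for the Hecke products `Hf = ∏_i f ∣ α_i`, `HB = ∏_i B ∣ α_i`. -/
theorem isRatioF_heckeProd_pow {ℓ : ℕ} [Fact ℓ.Prime] (hℓN : ¬ ℓ ∣ N) {x x' : FC N}
    (hT : ∀ (w : ℤ) (A B : ModularForm (Gamma0 N) w), A ≠ 0 → IsRatio N x A B →
      ∀ (w' : ℤ) (A' B' : ModularForm (Gamma0 N) w'),
        (⇑A' = fun z => ∏ i : OnePoint (ZMod ℓ), (⇑A ∣[w] heckeRep ℓ i) z) →
        (⇑B' = fun z => ∏ i : OnePoint (ZMod ℓ), (⇑B ∣[w] heckeRep ℓ i) z) →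
        IsRatio N x' A' B') {n : ℕ} {w : ℤ} {χ : ↥(Gamma0 N) →* ℂˣ} {f B : ℍ → ℂ}
    (hf : IsFormChar N w χ f) (hB : IsFormChar N w 1 B) (hf0 : f ≠ 0) (hB0 : B ≠ 0)
    (hχn : ∀ γ, χ γ ^ n = 1) (hx : IsRatioF N x (f ^ n) (B ^ n)) :
    IsRatioF N x' ((fun z => ∏ i : OnePoint (ZMod ℓ), (f ∣[w] heckeRep ℓ i) z) ^ n)
      ((fun z => ∏ i : OnePoint (ZMod ℓ), (B ∣[w] heckeRep ℓ i) z) ^ n) := by
  have hχ' := heckeTransfer_pow_eq_one hℓN hχn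
  have hHf := hf.heckeProd hℓN
  have hHB : IsFormChar N (w * (ℓ + 1)) 1
      (fun z => ∏ i : OnePoint (ZMod ℓ), (B ∣[w] heckeRep ℓ i) z) :=
    (hB.heckeProd hℓN).cast rfl (heckeTransfer_one hℓN)
  have hHB0 := heckeProd_ne_zero (ℓ := ℓ) (w := w) hB.mdiff hB0
  have h1n : ∀ γ : ↥(Gamma0 N), (1 : ↥(Gamma0 N) →* ℂˣ) γ ^ n = 1 := fun γ => by simp
  obtain ⟨A, hA⟩ := hf.pow_isMF hχn
  obtain ⟨B', hB'⟩ := hB.pow_isMF h1n
  have hB'0 : B' ≠ 0 := by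
    intro h0
    apply pow_ne_zero_fun hB0 n
    rw [← hB', h0]
    rfl
  have hA0 : A ≠ 0 := by
    intro h0
    apply pow_ne_zero_fun hf0 n
    rw [← hA, h0]
    rfl
  have hAB : IsRatio N x A B' := by
    refine ⟨hB'0, ?_⟩
    rw [hA, hB']
    exact hx.2.2
  -- the Hecke products of `A`, `B'` as modular forms
  have hPA : IsFormChar N ((n : ℤ) * w * (ℓ + 1)) 1
      (fun z => ∏ i : OnePoint (ZMod ℓ), (⇑A ∣[(n : ℤ) * w] heckeRep ℓ i) z) :=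
    ((isFormChar_of_modularForm A).heckeProd hℓN).cast rfl (heckeTransfer_one hℓN)
  have hPB : IsFormChar N ((n : ℤ) * w * (ℓ + 1)) 1
      (fun z => ∏ i : OnePoint (ZMod ℓ), (⇑B' ∣[(n : ℤ) * w] heckeRep ℓ i) z) :=
    ((isFormChar_of_modularForm B').heckeProd hℓN).cast rfl (heckeTransfer_one hℓN)
  obtain ⟨A', hA'⟩ := hPA.exists_modularForm
  obtain ⟨B'', hB''⟩ := hPB.exists_modularForm
  have hratio := (hT ((n : ℤ) * w) A B' hA0 hAB _ A' B'' hA' hB'').isRatioF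
  rw [hA', hB'', hA, hB', kappaHecke_heckeProd_pow, kappaHecke_heckeProd_pow] at hratio
  refine hratio.congr (pow_ne_zero_fun hHB0 n) (hHf.pow_isMF hχ') (hHB.pow_isMF h1n) ?_
  funext z
  simp only [Pi.mul_apply, Pi.smul_apply, Pi.pow_apply, Complex.real_smul]
  ring

/-- Lemma E with an abstract Hecke norm: if `T_ℓ [D] = [E]`, `n • E = div x'` and `x'` is the
Hecke norm of `x`, then `T_ℓ` maps the `θ`-class of `χ` to the `θ`-class of `T_ℓ χ`. -/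
theorem IsTheta.hecke_of_heckeNormAt {ℓ : ℕ} [Fact ℓ.Prime] (hℓN : ¬ ℓ ∣ N) {n : ℕ}
    {χ : ↥(Gamma0 N) →* ℂˣ} {w : ℤ} {f B : ℍ → ℂ} {x x' : FC N}
    {E : Divisor.degZero (K := ℂ) (F := FC N)}
    (hχ : ∀ γ, χ γ ^ n = 1)
    (hf : IsFormChar N w χ f) (hB : IsFormChar N w 1 B) (hf0 : f ≠ 0) (hB0 : B ≠ 0)
    (hx : IsRatioF N x (f ^ n) (B ^ n)) (hT : ∀ (w : ℤ) (A B : ModularForm (Gamma0 N) w), A ≠ 0 → IsRatio N x A B →
      ∀ (w' : ℤ) (A' B' : ModularForm (Gamma0 N) w'),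
        (⇑A' = fun z => ∏ i : OnePoint (ZMod ℓ), (⇑A ∣[w] heckeRep ℓ i) z) →
        (⇑B' = fun z => ∏ i : OnePoint (ZMod ℓ), (⇑B ∣[w] heckeRep ℓ i) z) →
        IsRatio N x' A' B') (hE : IsRootDiv n x' E) :
    IsTheta N n (heckeTransfer hℓN χ) (Pic0.mk E) :=
  ⟨heckeTransfer_pow_eq_one hℓN hχ, w * (ℓ + 1), _, _, x', E, hf.heckeProd hℓN,
    (hB.heckeProd hℓN).cast rfl (heckeTransfer_one hℓN),
    heckeProd_ne_zero (ℓ := ℓ) (w := w) hf.mdiff hf0,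
    heckeProd_ne_zero (ℓ := ℓ) (w := w) hB.mdiff hB0,
    isRatioF_heckeProd_pow hℓN hT hf hB hf0 hB0 hχ hx, hE, rfl⟩

theorem IsTheta.hecke {ℓ : ℕ} [Fact ℓ.Prime] [NeZero ℓ] (hℓN : ¬ ℓ ∣ N)
    (hH : ModularCurve.HeckeInputsAlong ℂ N ℓ) (hD3 : DictD3 N ℓ) {n : ℕ} (hn : n ≠ 0)
    {χ : ↥(Gamma0 N) →* ℂˣ} {c : Pic0 ℂ (FC N)} (h : IsTheta N n χ c) :
    IsTheta N n (heckeTransfer hℓN χ) (ModularCurve.heckeOperatorAlong ℂ N ℓ c) := by
  obtain ⟨hχ, w, f, B, x, D, hf, hB, hf0, hB0, hr, hD, rfl⟩ := h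
  obtain ⟨E, hE, hEroot⟩ := IsRootDiv.hecke hH hD
  rw [hE]
  exact IsTheta.hecke_of_heckeNormAt hℓN hχ hf hB hf0 hB0 hr (fun w A B hA hAB w' A' B' hA' hB' => hD3 w A B x hA hAB w' A' B' hA' hB') hEroot

end Fermat.Agent.F3I2
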