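/-
F3 / (I2), kappa core (helper43), part 6: the assembly.

Given a base change homomorphism `bc : J₀(N)(ℚ̄) → Pic0 (F_ℂ(N))` which is injective, onto the
torsion and commutes with `T_ℓ` on torsion classes, the relation
  `IsKappa bc n c y  :⟺  IsTheta N n (charOf n c) (bc y)`
is the graph of a `ℤ`-linear map `κ_n : HomPar N → J₀(N)(ℚ̄)[n]` with kernel `n · HomPar N`,
compatible for varying `n` (`d • κ_{dn} = κ_n`) and Hecke-equivariant.
-/
import Fermat.Agent.F3.I2.Kappa.Exists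
import Fermat.Agent.F3.I2.Kappa.Kernel
import Fermat.Agent.F3.I2.Kappa.Hecke
import Fermat.Agent.F3.Interfaces

set_option autoImplicit false
set_option linter.style.haveILetI false

noncomputable section

namespace Fermat.Agent.F3I2

open UpperHalfPlane CongruenceSubgroup ModularCurve AlgebraicCurve
open scoped MatrixGroups ModularForm Manifold
open Fermat.Agent.S23 Fermat.Agent.F3EC

variable {N : ℕ} [NeZero N]

/-- From level `d * n` to level `n`: same function, `d`-th powers of the forms, `d • D`. -/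
theorem IsTheta.of_mul {n d : ℕ} {χ : ↥(Gamma0 N) →* ℂˣ} {c : Pic0 ℂ (FC N)}
    (h : IsTheta N (d * n) χ c) : IsTheta N n (χ ^ d) (d • c) := by
  obtain ⟨hχ, w, f, B, x, D, hf, hB, hf0, hB0, hr, hD, rfl⟩ := h
  refine ⟨fun γ => by rw [MonoidHom.pow_apply, ← pow_mul, hχ], d * w, f ^ d, B ^ d, x, d • D,
    hf.pow d, (hB.pow d).cast rfl (by ext γ; simp), pow_ne_zero_fun hf0 d, pow_ne_zero_fun hB0 d,
    ?_, ?_, ?_⟩
  · rw [← pow_mul, ← pow_mul]
    exact hr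
  · refine ⟨hD.1, fun v => ?_⟩
    have h1 := hD.2 v
    rw [← h1]
    simp only [AddSubgroup.coe_nsmul, Finsupp.coe_smul, Pi.smul_apply, nsmul_eq_mul,
      Nat.cast_mul]
    ring
  · exact map_nsmul (QuotientAddGroup.mk' _) d D

section Graph

variable (bc : JZero N →+ Pic0 ℂ (FC N))

/-- The graph of `κ_n`. -/
def IsKappa (n : ℕ) (c : HomPar N) (y : JZero N) : Prop :=
  IsTheta N n (charOf n c) (bc y)

variable {bc}

theorem IsKappa.unique (hinj : Function.Injective bc) {n : ℕ} (hn : n ≠ 0) {c : HomPar N}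
    {y y' : JZero N} (h : IsKappa bc n c y) (h' : IsKappa bc n c y') : y = y' :=
  hinj (IsTheta.unique hn h h')

theorem exists_isKappa (hD2a : DictD2a N) (hHPD : DictHPD N)
    (hsurj : ∀ n : ℕ, 0 < n → ∀ x' : Pic0 ℂ (FC N), n • x' = 0 → ∃ x : JZero N, bc x = x')
    {n : ℕ} (hn : 0 < n) (c : HomPar N) : ∃ y : JZero N, IsKappa bc n c y := by
  obtain ⟨cls, hcls⟩ := exists_isTheta_charOf hD2a hHPD hn.ne' c
  obtain ⟨y, hy⟩ := hsurj n hn cls hcls.nsmul_eq_zero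
  exact ⟨y, by rw [IsKappa, hy]; exact hcls⟩

theorem IsKappa.zero (n : ℕ) : IsKappa bc n (0 : HomPar N) 0 := by
  rw [IsKappa, charOf_zero, map_zero]
  exact IsTheta.one N n

theorem IsKappa.add {n : ℕ} (hn : n ≠ 0) {c c' : HomPar N} {y y' : JZero N}
    (h : IsKappa bc n c y) (h' : IsKappa bc n c' y') : IsKappa bc n (c + c') (y + y') := by
  rw [IsKappa, charOf_add, map_add]
  exact IsTheta.mul hn h h'

theorem IsKappa.nsmul_eq_zero (hinj : Function.Injective bc) {n : ℕ} {c : HomPar N}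
    {y : JZero N} (h : IsKappa bc n c y) : n • y = 0 := by
  apply hinj
  rw [map_nsmul, map_zero]
  exact IsTheta.nsmul_eq_zero h

theorem IsKappa.ker (hC : DictConst N) {n : ℕ} (hn : n ≠ 0) {c : HomPar N}
    (h : IsKappa bc n c 0) : ∃ c' : HomPar N, c = (n : ℤ) • c' := by
  rw [IsKappa, map_zero] at h
  exact exists_eq_smul_of_charOf_eq_one hn c (IsTheta.char_eq_one hC hn h)

theorem IsKappa.compat {n d : ℕ} (hd : d ≠ 0) {c : HomPar N} {y : JZero N}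
    (h : IsKappa bc (d * n) c y) : IsKappa bc n c (d • y) := by
  have h1 := IsTheta.of_mul h
  rw [charOf_compat hd] at h1
  rw [IsKappa, map_nsmul]
  exact h1

theorem IsKappa.hecke (ℓ : Nat.Primes) (hℓN : ¬ (ℓ : ℕ) ∣ N)
    (hH : haveI : NeZero (ℓ : ℕ) := ⟨ℓ.2.ne_zero⟩; ModularCurve.HeckeInputsAlong ℂ N ℓ)
    (hD3 : haveI : NeZero (ℓ : ℕ) := ⟨ℓ.2.ne_zero⟩; DictD3 N ℓ)
    {n : ℕ} (hn : n ≠ 0) {c : HomPar N} {y : JZero N}
    (hT : bc (heckeOperatorBar N ℓ y) =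
      (haveI : NeZero (ℓ : ℕ) := ⟨ℓ.2.ne_zero⟩; ModularCurve.heckeOperatorAlong ℂ N ℓ (bc y)))
    (h : IsKappa bc n c y) : IsKappa bc n (heckeHom N ℓ c) (heckeOperatorBar N ℓ y) := by
  haveI : NeZero (ℓ : ℕ) := ⟨ℓ.2.ne_zero⟩
  haveI : Fact (ℓ : ℕ).Prime := ⟨ℓ.2⟩
  have h1 := IsTheta.hecke hℓN hH hD3 hn h
  rw [heckeTransfer_charOf ℓ hℓN n c] at h1
  rw [IsKappa, hT]
  exact h1

end Graph

/-- **The assembly**: the family `κ_n` from a base change `bc`. -/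
theorem exists_kappa_of_bc (hD2a : DictD2a N) (hHPD : DictHPD N) (hC : DictConst N)
    (hH : ∀ ℓ : Nat.Primes, ¬ (ℓ : ℕ) ∣ N →
      haveI : NeZero (ℓ : ℕ) := ⟨ℓ.2.ne_zero⟩; ModularCurve.HeckeInputsAlong ℂ N ℓ)
    (hD3 : ∀ ℓ : Nat.Primes, ¬ (ℓ : ℕ) ∣ N →
      haveI : NeZero (ℓ : ℕ) := ⟨ℓ.2.ne_zero⟩; DictD3 N ℓ)
    (bc : JZero N →+ Pic0 ℂ (FC N)) (hinj : Function.Injective bc)
    (hsurj : ∀ n : ℕ, 0 < n → ∀ x' : Pic0 ℂ (FC N), n • x' = 0 → ∃ x : JZero N, bc x = x')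
    (hT : ∀ ℓ : Nat.Primes, ¬ (ℓ : ℕ) ∣ N → ∀ (n : ℕ), 0 < n → ∀ y : JZero N, n • y = 0 →
      bc (heckeOperatorBar N ℓ y) =
        (haveI : NeZero (ℓ : ℕ) := ⟨ℓ.2.ne_zero⟩; ModularCurve.heckeOperatorAlong ℂ N ℓ (bc y))) :
    ∃ κ : (n : ℕ) → HomPar N →ₗ[ℤ] Fermat.Agent.F3.Jtors N n,
      (∀ n : ℕ, 0 < n → ∀ c : HomPar N, κ n c = 0 → ∃ c' : HomPar N, c = (n : ℤ) • c') ∧
      (∀ (n d : ℕ) (c : HomPar N), 0 < n → 0 < d →
        (d : ℤ) • ((κ (d * n) c : Fermat.Agent.F3.Jtors N (d * n)) : JZero N) =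
          (κ n c : JZero N)) ∧
      (∀ (n : ℕ) (ℓ : Nat.Primes), ¬ (ℓ : ℕ) ∣ N → ∀ c : HomPar N,
        κ n (heckeHom N ℓ c) = Fermat.Agent.F3.heckeTors N n ℓ (κ n c)) := by
  classical
  -- the choice
  have hex : ∀ (n : ℕ) (c : HomPar N), ∃ y : JZero N, 0 < n → IsKappa bc n c y := by
    intro n c
    rcases Nat.eq_zero_or_pos n with h0 | hn
    · exact ⟨0, fun h => absurd h0 h.ne'⟩
    · obtain ⟨y, hy⟩ := exists_isKappa hD2a hHPD hsurj hn c
      exact ⟨y, fun _ => hy⟩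
  choose k hk using hex
  have hmem : ∀ (n : ℕ) (hn : 0 < n) (c : HomPar N), k n c ∈ Fermat.Agent.F3.Jtors N n := by
    intro n hn c
    rw [Submodule.mem_torsionBy_iff, natCast_zsmul]
    exact (hk n c hn).nsmul_eq_zero hinj
  have hadd : ∀ (n : ℕ) (hn : 0 < n) (c c' : HomPar N), k n (c + c') = k n c + k n c' :=
    fun n hn c c' =>
      (hk n (c + c') hn).unique hinj hn.ne' ((hk n c hn).add hn.ne' (hk n c' hn))
  have hzero : ∀ (n : ℕ) (hn : 0 < n), k n 0 = 0 := fun n hn =>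
    (hk n 0 hn).unique hinj hn.ne' (IsKappa.zero n)
  -- the linear maps
  let κ : (n : ℕ) → HomPar N →ₗ[ℤ] Fermat.Agent.F3.Jtors N n := fun n =>
    if hn : 0 < n then
      (AddMonoidHom.toIntLinearMap
        { toFun := fun c => (⟨k n c, hmem n hn c⟩ : Fermat.Agent.F3.Jtors N n)
          map_zero' := Subtype.ext (hzero n hn)
          map_add' := fun c c' => Subtype.ext (hadd n hn c c') })
    else 0
  have hκ : ∀ (n : ℕ) (hn : 0 < n) (c : HomPar N),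
      ((κ n c : Fermat.Agent.F3.Jtors N n) : JZero N) = k n c := by
    intro n hn c
    simp only [κ, dif_pos hn]
    rfl
  have hκ0 : ∀ (n : ℕ), ¬ 0 < n → ∀ c : HomPar N, κ n c = 0 := by
    intro n hn c
    simp only [κ, dif_neg hn]
    rfl
  refine ⟨κ, ?_, ?_, ?_⟩
  · intro n hn c hc
    have h1 : k n c = 0 := by
      rw [← hκ n hn c, hc]
      rfl
    have h2 := hk n c hn
    rw [h1] at h2
    exact h2.ker hC hn.ne'
  · intro n d c hn hd
    rw [hκ n hn c, hκ (d * n) (Nat.mul_pos hd hn) c, natCast_zsmul]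
    exact ((hk (d * n) c (Nat.mul_pos hd hn)).compat hd.ne').unique hinj hn.ne' (hk n c hn)
  · intro n ℓ hℓN c
    rcases Nat.eq_zero_or_pos n with h0 | hn
    · have hn' : ¬ 0 < n := by omega
      rw [hκ0 n hn', hκ0 n hn', map_zero]
    · apply Subtype.ext
      rw [hκ n hn]
      have h1 : ((Fermat.Agent.F3.heckeTors N n ℓ (κ n c) : Fermat.Agent.F3.Jtors N n) : JZero N)
          = heckeOperatorBar N ℓ (k n c) := by
        rw [← hκ n hn c]
        rfl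
      rw [h1]
      have hy0 : n • k n c = 0 := (hk n c hn).nsmul_eq_zero hinj
      exact (hk n (heckeHom N ℓ c) hn).unique hinj hn.ne'
        ((hk n c hn).hecke ℓ hℓN (hH ℓ hℓN) (hD3 ℓ hℓN) hn.ne' (hT ℓ hℓN n hn (k n c) hy0))

end Fermat.Agent.F3I2
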