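/-
F3 / (I2), kappa core (helper43), part 5: existence.  For `c ∈ HomPar N` and `n ≠ 0` the class
`[(1/n) div ((E_χ / E_1)^n)]`, `χ = χ_{c,n}`, exists: all orders of `(E_χ / E_1)^n` at the places
of `FC N` are divisible by `n`.  Consumes `DictD2a N` and `DictHPD N`.
-/
import Mathlib
import Fermat.Agent.F3.I2.LocalOrders
import Fermat.Agent.F3.I2.FormChar
import Fermat.Agent.F3.I2.Kappa.Theta
import Fermat.Agent.F3.I2.Kappa.CharOf
import Fermat.Agent.F3.I2.Char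

set_option autoImplicit false

noncomputable section

namespace Fermat.Agent.F3I2

open UpperHalfPlane CongruenceSubgroup Complex ModularForm ModularCurve AlgebraicCurve
open scoped MatrixGroups ModularForm Manifold
open Fermat.Agent.S23 Fermat.Agent.F3EC

/-! ### elements fixing a point have finite order -/

/-- cocycle relation at a fixed point, for `SL(2,ℤ)`. -/
theorem denom_mul_of_fix (g h : SL(2, ℤ)) {τ : ℍ} (hh : h • τ = τ) :
    denom (g * h : SL(2, ℤ)) τ = denom g τ * denom h τ := by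
  have h1 := denom_cocycle_σ (g : GL (Fin 2) ℝ) (h : GL (Fin 2) ℝ) τ
  have h2 : σ (h : GL (Fin 2) ℝ) = ContinuousAlgEquiv.refl ℝ ℂ := by
    simp [σ]
  have h3 : ((h : GL (Fin 2) ℝ) • τ) = τ := by
    have : ((h : GL (Fin 2) ℝ) • τ) = h • τ := rfl
    rw [this, hh]
  rw [h2, h3] at h1
  simpa using h1

theorem denom_pow_of_fix (g : SL(2, ℤ)) {τ : ℍ} (hg : g • τ = τ) (m : ℕ) :
    (g ^ m) • τ = τ ∧ denom (g ^ m : SL(2, ℤ)) τ = denom g τ ^ m := by
  induction m with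
  | zero => simp [denom]
  | succ k ih =>
    refine ⟨?_, ?_⟩
    · rw [pow_succ, mul_smul, hg, ih.1]
    · rw [pow_succ, denom_mul_of_fix _ _ hg, ih.2, pow_succ]

/-- An element of `SL(2,ℤ)` fixing `τ` with automorphy factor `1` at `τ` is the identity. -/
theorem eq_one_of_fix_of_denom_eq_one (g : SL(2, ℤ)) {τ : ℍ} (hg : g • τ = τ)
    (hd : denom g τ = 1) : g = 1 := by
  rw [ModularGroup.denom_apply] at hd
  have him := congrArg Complex.im hd
  simp at him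
  have hc : g 1 0 = 0 := by
    rcases him with h | h
    · exact_mod_cast h
    · exact absurd h τ.im_ne_zero
  have hd1 : g 1 1 = 1 := by
    rw [hc] at hd
    simp at hd
    exact_mod_cast hd
  have hdet := g.det_coe
  rw [Matrix.det_fin_two, hc, hd1] at hdet
  have ha : g 0 0 = 1 := by linarith
  have hsm := congrArg (fun z : ℍ => (z : ℂ)) hg
  simp only [coe_specialLinearGroup_apply] at hsm
  rw [hc, hd1, ha] at hsm
  simp at hsm
  have hb : g 0 1 = 0 := by exact_mod_cast hsm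
  ext i j
  fin_cases i <;> fin_cases j <;> simp [ha, hb, hc, hd1]

/-- An element of `SL(2,ℤ)` fixing `τ` whose squared automorphy factor at `τ` has finite order
`e` satisfies `g ^ (2 e) = 1`. -/
theorem pow_eq_one_of_fix {g : SL(2, ℤ)} {τ : ℍ} (hg : g • τ = τ) {e : ℕ}
    (hprim : IsPrimitiveRoot ((((g 1 0 : ℤ) : ℂ) * (τ : ℂ) + ((g 1 1 : ℤ) : ℂ)) ^ 2) e) :
    g ^ (2 * e) = 1 := by
  obtain ⟨h1, h2⟩ := denom_pow_of_fix g hg (2 * e)
  refine eq_one_of_fix_of_denom_eq_one _ h1 ?_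
  rw [h2, ModularGroup.denom_apply, pow_mul]
  exact hprim.pow_eq_one


theorem slash_T_pow_apply (F : ℍ → ℂ) (w : ℤ) (h : ℕ) (z : ℍ) :
    (F ∣[w] (ModularGroup.T ^ h)) z = F ((h : ℝ) +ᵥ z) := by
  rw [SL_slash_apply]
  have h1 : (ModularGroup.T ^ h) • z = (h : ℝ) +ᵥ z := by
    ext
    have := ModularGroup.coe_T_zpow_smul_eq z (n := (h : ℤ))
    rw [zpow_natCast] at this
    rw [this, UpperHalfPlane.coe_vadd]
    push_cast
    ring
  have h2 : denom (ModularGroup.T ^ h : SL(2, ℤ)) z = 1 := by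
    rw [ModularGroup.denom_apply]
    have := ModularGroup.coe_T_zpow (h : ℤ)
    rw [zpow_natCast] at this
    simp [this]
  rw [h1, h2, one_zpow, mul_one]

/-- If `f` is invariant under the conjugate `g T^h g⁻¹`, then `f ∣[w] g` has period `h`. -/
theorem hasPeriod_slash {f : ℍ → ℂ} {w : ℤ} {g : SL(2, ℤ)} {h : ℕ}
    (hinv : f ∣[w] (g * ModularGroup.T ^ h * g⁻¹) = f) : HasPeriod h (f ∣[w] g) := by
  intro z
  rw [← slash_T_pow_apply (f ∣[w] g) w h z, ← SlashAction.slash_mul]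
  have : g * ModularGroup.T ^ h = (g * ModularGroup.T ^ h * g⁻¹) * g := by group
  rw [this, SlashAction.slash_mul, hinv]

theorem trace_conj_T_pow (g : SL(2, ℤ)) (h : ℕ) :
    ((g * ModularGroup.T ^ h * g⁻¹ : SL(2, ℤ)) : Matrix (Fin 2) (Fin 2) ℤ).trace ^ 2 = 4 := by
  have h1 : ((g * ModularGroup.T ^ h * g⁻¹ : SL(2, ℤ)) : Matrix (Fin 2) (Fin 2) ℤ) =
      (g : Matrix (Fin 2) (Fin 2) ℤ) * ((ModularGroup.T ^ h : SL(2, ℤ)) : Matrix (Fin 2) (Fin 2) ℤ)
        * ((g⁻¹ : SL(2, ℤ)) : Matrix (Fin 2) (Fin 2) ℤ) := by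
    simp
  rw [h1, Matrix.trace_mul_cycle, ← Matrix.SpecialLinearGroup.coe_mul, inv_mul_cancel]
  have := ModularGroup.coe_T_zpow (h : ℤ)
  rw [zpow_natCast] at this
  simp [this, Matrix.trace_fin_two]


/-! ### divisibility of the orders -/

variable {N : ℕ} [NeZero N]

/-- Bundled version of a ratio `x = f^n / B^n` with forms of weight `n * w`. -/
theorem exists_isRatio_pow {n : ℕ} {w : ℤ} {χ : ↥(Gamma0 N) →* ℂˣ} {f B : ℍ → ℂ}
    (hf : IsFormChar N w χ f) (hB : IsFormChar N w 1 B) (hf0 : f ≠ 0) (hB0 : B ≠ 0)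
    (hχn : ∀ γ, χ γ ^ n = 1) {x : FC N} (hx : IsRatioF N x (f ^ n) (B ^ n)) :
    ∃ A B' : ModularForm (Gamma0 N) ((n : ℤ) * w), ⇑A = f ^ n ∧ ⇑B' = B ^ n ∧ A ≠ 0 ∧
      IsRatio N x A B' := by
  obtain ⟨A, hA⟩ := hf.pow_isMF hχn
  obtain ⟨B', hB'⟩ := hB.pow_isMF (n := n) (fun γ => by simp)
  refine ⟨A, B', hA, hB', ?_, ?_, ?_⟩
  · intro h0
    apply pow_ne_zero_fun hf0 n
    rw [← hA, h0]
    rfl
  · intro h0
    apply pow_ne_zero_fun hB0 n
    rw [← hB', h0]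
    rfl
  · have := hx.2.2
    rw [← hA, ← hB'] at this
    exact this

theorem slash_SL_ne_zero {f : ℍ → ℂ} (hf0 : f ≠ 0) (w : ℤ) (g : SL(2, ℤ)) : f ∣[w] g ≠ 0 := by
  rw [SL_slash]
  exact fc_slash_ne_zero hf0 w _

theorem mdiff_slash_SL {f : ℍ → ℂ} (hf : MDiff f) (w : ℤ) (g : SL(2, ℤ)) : MDiff (f ∣[w] g) := by
  rw [SL_slash]
  exact hf.slash w _

/-- **Divisibility**: if the character of `f` is trivial on torsion elements and on elements of
trace `±2`, then every order of `x = f^n / B^n` at a place of `FC N` is divisible by `n`. -/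
theorem dvd_ord_of_isRatioF_pow (hD2a : DictD2a N) {n : ℕ} (hn : n ≠ 0) {w : ℤ}
    {χ : ↥(Gamma0 N) →* ℂˣ} {f B : ℍ → ℂ}
    (hf : IsFormChar N w χ f) (hB : IsFormChar N w 1 B) (hf0 : f ≠ 0) (hB0 : B ≠ 0)
    (hχn : ∀ γ, χ γ ^ n = 1)
    (hχtor : ∀ (γ : ↥(Gamma0 N)) (m : ℕ), m ≠ 0 → γ ^ m = 1 → χ γ = 1)
    (hχpar : ∀ γ : ↥(Gamma0 N),
      ((γ : SL(2, ℤ)) : Matrix (Fin 2) (Fin 2) ℤ).trace ^ 2 = 4 → χ γ = 1)
    {x : FC N} (hx : IsRatioF N x (f ^ n) (B ^ n)) (v : Place ℂ (FC N)) :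
    (n : ℤ) ∣ v.ord x := by
  obtain ⟨A, B', hA, hB', hA0, hAB⟩ := exists_isRatio_pow hf hB hf0 hB0 hχn hx
  rcases hD2a v with ⟨τ, e, he, ⟨γ₀, hγ₀, hfix, hprim⟩, hchart⟩ | ⟨g, h, e, hh, he, hmem, hchart⟩
  · -- a point of `ℍ`
    have h1 := hchart _ A B' x hA0 hAB
    rw [hA, hB', ordAt_pow hf.mdiff hf0, ordAt_pow hB.mdiff hB0] at h1
    have hχγ₀ : χ ⟨γ₀, hγ₀⟩ = 1 := by
      refine hχtor ⟨γ₀, hγ₀⟩ (2 * e) (by omega) ?_
      apply Subtype.ext
      simpa using pow_eq_one_of_fix hfix hprim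
    have hfinv : f ∣[w] γ₀ = f := by
      have := hf.slash ⟨γ₀, hγ₀⟩
      rw [hχγ₀] at this
      simpa using this
    have hBinv : B ∣[w] γ₀ = B := by
      have := hB.slash ⟨γ₀, hγ₀⟩
      simpa using this
    obtain ⟨k, hk⟩ := dvd_ordAt_sub_of_slash_invariant hf.mdiff hB.mdiff hf0 hB0 hfix hprim
      hfinv hBinv
    refine ⟨k, ?_⟩
    have he' : (e : ℤ) ≠ 0 := by exact_mod_cast he.ne'
    apply mul_left_cancel₀ he'
    rw [h1, ← mul_sub, hk]
    ring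
  · -- a cusp
    have h1 := hchart _ A B' x hA0 hAB
    rw [hA, hB', pow_slash_SL2, pow_slash_SL2] at h1
    set γ' : ↥(Gamma0 N) := ⟨g * ModularGroup.T ^ h * g⁻¹, hmem⟩ with hγ'
    have hχγ' : χ γ' = 1 := hχpar γ' (trace_conj_T_pow g h)
    have hfinv : f ∣[w] (g * ModularGroup.T ^ h * g⁻¹) = f := by
      have := hf.slash γ'
      rw [hχγ'] at this
      simpa using this
    have hBinv : B ∣[w] (g * ModularGroup.T ^ h * g⁻¹) = B := by
      have := hB.slash γ'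
      simpa using this
    have hfp : HasPeriod h (f ∣[w] g) := hasPeriod_slash hfinv
    have hBp : HasPeriod h (B ∣[w] g) := hasPeriod_slash hBinv
    have hhe : 0 < h * e := Nat.mul_pos hh he
    rw [ordInf_pow hhe (mdiff_slash_SL hf.mdiff w g) (lo_hasPeriod_mul hfp e) (hf.bdd g)
        (slash_SL_ne_zero hf0 w g),
      ordInf_pow hhe (mdiff_slash_SL hB.mdiff w g) (lo_hasPeriod_mul hBp e) (hB.bdd g)
        (slash_SL_ne_zero hB0 w g),
      ordInf_mul_period hh he (mdiff_slash_SL hf.mdiff w g) hfp (hf.bdd g)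
        (slash_SL_ne_zero hf0 w g),
      ordInf_mul_period hh he (mdiff_slash_SL hB.mdiff w g) hBp (hB.bdd g)
        (slash_SL_ne_zero hB0 w g)] at h1
    refine ⟨ordInf h (f ∣[w] g) - ordInf h (B ∣[w] g), ?_⟩
    have he' : (e : ℤ) ≠ 0 := by exact_mod_cast he.ne'
    apply mul_left_cancel₀ he'
    rw [h1]
    ring

/-! ### existence of the class attached to `c ∈ HomPar N` -/

/-- **Existence**: the class `κ_n(c) = [(1/n) div ((E_{4,χ} / E_{4,1})^n)]`, `χ = χ_{c,n}`. -/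
theorem exists_isTheta_charOf (hD2a : DictD2a N) (hHPD : DictHPD N) {n : ℕ} (hn : n ≠ 0)
    (c : HomPar N) : ∃ cls : Pic0 ℂ (FC N), IsTheta N n (charOf n c) cls := by
  haveI : HasPrincipalDivisors ℂ (FC N) := hHPD
  have hinf : ∀ (c' : HomPar N) (γ : ↥(Gamma0 N)), (γ : SL(2, ℤ)) 1 0 = 0 →
      charOf n c' γ = 1 := by
    intro c' γ hγ
    apply charOf_eq_one_of_trace
    have hdet := (γ : SL(2, ℤ)).det_coe
    rw [Matrix.det_fin_two, hγ, mul_zero, sub_zero] at hdet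
    rw [Matrix.trace_fin_two]
    have h1 : ((γ : SL(2, ℤ)) 0 0 + (γ : SL(2, ℤ)) 1 1) ^ 2 =
        ((γ : SL(2, ℤ)) 0 0 - (γ : SL(2, ℤ)) 1 1) ^ 2 + 4 := by
      linear_combination 4 * hdet
    have h2 : (γ : SL(2, ℤ)) 0 0 = (γ : SL(2, ℤ)) 1 1 := by
      rcases Int.isUnit_iff.1 (IsUnit.of_mul_eq_one _ hdet) with h | h <;>
        · rw [h] at hdet
          rw [h]
          linarith
    rw [h1, h2]
    ring
  have hE : IsFormChar N 4 (charOf n c) (eisChar N 4 (charOf n c)) :=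
    isFormChar_eisChar _ (norm_charOf n c) (hinf c) 4 (by norm_num)
  have h1 : charOf n (0 : HomPar N) = 1 := charOf_zero n
  have hE1 : IsFormChar N 4 1 (eisChar N 4 (charOf n (0 : HomPar N))) := by
    have := isFormChar_eisChar (charOf n (0 : HomPar N)) (norm_charOf n 0) (hinf 0) 4
      (by norm_num)
    rwa [h1] at this
  have hE0 : eisChar N 4 (charOf n c) ≠ 0 :=
    eisChar_ne_zero (by norm_num) (by decide) _ (norm_charOf n c) (hinf c)
  have hE10 : eisChar N 4 (charOf n (0 : HomPar N)) ≠ 0 :=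
    eisChar_ne_zero (by norm_num) (by decide) _ (norm_charOf n 0) (hinf 0)
  obtain ⟨x, hx⟩ := exists_isRatioF (hE.pow_isMF (charOf_pow n c))
    (hE1.pow_isMF (n := n) (fun γ => by simp)) (pow_ne_zero_fun hE10 n)
  have hx0 : x ≠ 0 := by
    intro h0
    exact pow_ne_zero_fun hE0 n (hx.eq_zero_iff.1 h0)
  have hdiv : ∀ v : Place ℂ (FC N), (n : ℤ) ∣ v.ord x := fun v =>
    dvd_ord_of_isRatioF_pow hD2a hn hE hE1 hE0 hE10 (charOf_pow n c)
      (fun γ m hm h => charOf_eq_one_of_pow_eq_one n c hm h)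
      (fun γ h => charOf_eq_one_of_trace n c h) hx v
  obtain ⟨D, hD⟩ := exists_isRootDiv (Nat.pos_of_ne_zero hn) hx0 hdiv
  exact ⟨Pic0.mk D, charOf_pow n c, 4, _, _, x, D, hE, hE1, hE0, hE10, hx, hD, rfl⟩

end Fermat.Agent.F3I2
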