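/-
Cluster A (F3), analytic package (I2), piece (Nθ) (helper42):
the coefficientwise embedding `θ : F_ℚ̄(N) → F_ℂ(N)` commutes with the Hecke norm
`heckeFun = Norm_{F_{Nℓ}/F_N} ∘ (q ↦ q^ℓ)`.
Inputs: `dict3_qExpand_theta` (helper78, norm product formula over `ℚ̄` transported to `ℂ`),
`normProductFormulaC` (norm product formula over `ℂ`), injectivity of `qExpand`.
-/
import Fermat.Agent.F3.I2.Dict3Theta
import Fermat.Agent.F3.I2.Dict3Final

set_option autoImplicit false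

namespace Fermat.Agent.F3I2

open ModularCurve

/-- **(Nθ)**: `θ (heckeFun_ℚ̄ x) = heckeFun_ℂ (θ x)` for `ℓ` prime, `ℓ ∤ N`. -/
theorem descTheta_heckeFun (N ℓ : ℕ) [NeZero N] [NeZero ℓ] (hℓ : ℓ.Prime) (hℓN : ¬ ℓ ∣ N)
    [Algebra (AlgebraicClosure ℚ) ℂ] (x : ↥(modularFunctionFieldBar N)) :
    descTheta (AlgebraicClosure ℚ) ℂ (modularFunctionFieldFull N)
        (Fermat.Agent.F3G.heckeFun (AlgebraicClosure ℚ) N ℓ x)
      = Fermat.Agent.F3G.heckeFun ℂ N ℓ
          (descTheta (AlgebraicClosure ℚ) ℂ (modularFunctionFieldFull N) x) := by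
  apply Subtype.ext
  apply qExpand_injective (R := ℂ) ℓ
  rw [dict3_qExpand_theta N ℓ hℓ hℓN x]
  exact (normProductFormulaC N ℓ hℓ hℓN _).symm

end Fermat.Agent.F3I2
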